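import Mathlib

set_option autoImplicit false

/-!
# Inflation–restriction in degree 2: the cochain-level core

`G` a group, `S` a normal subgroup, `ρ` a representation of `G` on `V` with `H¹(S, V) = 0`
(hypothesis `hH1` in cocycle form).  A 2-cocycle `f` of `G` whose restriction to `S` is a
coboundary is cohomologous to a 2-cocycle which is inflated from `G ⧸ S` with values in `V^S`;
a 1-cochain whose coboundary is inflated is cohomologous... (injectivity).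

Everything here is at the level of plain functions; the wrapper for Mathlib's `groupCohomology`
is in `InfRes2.lean`.
-/

namespace Fermat.Agent.S55

variable {k G V : Type*} [CommRing k] [Group G] [AddCommGroup V] [Module k V]

/-- the inhomogeneous 2-cocycle condition (as in Mathlib's `mem_cocycles₂_iff`) -/
def Cf0Cocycle₂ (ρ : Representation k G V) (f : G × G → V) : Prop :=
  ∀ g h j : G, f (g * h, j) + f (g, h) = ρ g (f (h, j)) + f (g, h * j)

/-- the coboundary of an inhomogeneous 1-cochain (as in Mathlib's `d₁₂`) -/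
def cf0d₁ (ρ : Representation k G V) (φ : G → V) : G × G → V :=
  fun p => ρ p.1 (φ p.2) - φ (p.1 * p.2) + φ p.1

variable (ρ : Representation k G V)

@[simp] lemma cf0d₁_apply (φ : G → V) (g h : G) :
    cf0d₁ ρ φ (g, h) = ρ g (φ h) - φ (g * h) + φ g := rfl

lemma cf0d₁_cocycle (φ : G → V) : Cf0Cocycle₂ ρ (cf0d₁ ρ φ) := by
  intro g h j
  simp only [cf0d₁_apply, map_add, map_sub, map_mul, Module.End.mul_apply, mul_assoc]
  abel

lemma Cf0Cocycle₂.sub {f f' : G × G → V} (hf : Cf0Cocycle₂ ρ f) (hf' : Cf0Cocycle₂ ρ f') :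
    Cf0Cocycle₂ ρ (f - f') := by
  intro g h j
  simp only [Pi.sub_apply, map_sub]
  linear_combination (norm := abel) hf g h j - hf' g h j

variable (S : Subgroup G) [S.Normal]

/-- the chosen representative of the coset `g S` -/
noncomputable def cf0Rep (g : G) : G := (g : G ⧸ S).out

lemma cf0Rep_inv_mul_mem (g : G) : (cf0Rep S g)⁻¹ * g ∈ S := by
  rw [← QuotientGroup.eq, cf0Rep, QuotientGroup.out_eq']

lemma cf0Rep_mul_of_mem (g : G) {s : G} (hs : s ∈ S) : cf0Rep S (g * s) = cf0Rep S g := by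
  unfold cf0Rep
  congr 1
  rw [QuotientGroup.eq]
  simpa using hs

lemma cf0Rep_of_mem {s : G} (hs : s ∈ S) : cf0Rep S s = cf0Rep S 1 := by
  simpa using cf0Rep_mul_of_mem S 1 hs

lemma cf0Rep_one_mem : cf0Rep S 1 ∈ S := by
  have := cf0Rep_inv_mul_mem S 1
  simpa using this

variable {ρ S}

/-- **Step 0**: if `f` restricted to `S` is a coboundary, modify `f` to vanish on `S × S`. -/
lemma cf0_infres_step0 [DecidablePred (· ∈ S)] {f : G × G → V} (ψ : S → V)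
    (hψ : ∀ s t : S, f (s, t) = ρ s (ψ t) - ψ (s * t) + ψ s) :
    ∃ φ : G → V, ∀ s ∈ S, ∀ t ∈ S, (f - cf0d₁ ρ φ) (s, t) = 0 := by
  refine ⟨fun g => if h : g ∈ S then ψ ⟨g, h⟩ else 0, fun s hs t ht => ?_⟩
  have := hψ ⟨s, hs⟩ ⟨t, ht⟩
  simp only [Pi.sub_apply, cf0d₁_apply, hs, ht, S.mul_mem hs ht, dif_pos]
  rw [this]
  simp only [MulMemClass.mk_mul_mk]
  abel

/-- **Step 1**: a cocycle vanishing on `S × S` can be modified to vanish on `G × S`. -/
lemma cf0_infres_step1 {f : G × G → V} (hf : Cf0Cocycle₂ ρ f)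
    (h0 : ∀ s ∈ S, ∀ t ∈ S, f (s, t) = 0) :
    ∃ φ : G → V, ∀ g : G, ∀ s ∈ S, (f - cf0d₁ ρ φ) (g, s) = 0 := by
  refine ⟨fun g => -f (cf0Rep S g, (cf0Rep S g)⁻¹ * g), fun g s hs => ?_⟩
  have h1 : f (cf0Rep S s, (cf0Rep S s)⁻¹ * s) = 0 := by
    apply h0
    · rw [cf0Rep_of_mem S hs]; exact cf0Rep_one_mem S
    · exact cf0Rep_inv_mul_mem S s
  have h2 := hf (cf0Rep S g) ((cf0Rep S g)⁻¹ * g) s
  rw [h0 _ (cf0Rep_inv_mul_mem S g) _ hs, map_zero, mul_inv_cancel_left, mul_assoc] at h2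
  simp only [Pi.sub_apply, cf0d₁_apply, h1, neg_zero, map_zero, cf0Rep_mul_of_mem S g hs]
  linear_combination (norm := abel) h2

/-- right invariance in the second variable for cocycles vanishing on `G × S` -/
lemma cf0_infres_right_inv₂ {f : G × G → V} (hf : Cf0Cocycle₂ ρ f)
    (h1 : ∀ g : G, ∀ s ∈ S, f (g, s) = 0) (g g' : G) {s : G} (hs : s ∈ S) :
    f (g, g' * s) = f (g, g') := by
  have := hf g g' s
  rw [h1 _ _ hs, h1 _ _ hs, map_zero, zero_add, zero_add] at this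
  exact this.symm

lemma cf0_infres_left_inv₂ {f : G × G → V} (hf : Cf0Cocycle₂ ρ f)
    (h1 : ∀ g : G, ∀ s ∈ S, f (g, s) = 0) (g g' : G) {s : G} (hs : s ∈ S) :
    f (g, s * g') = f (g, g') := by
  have : s * g' = g' * (g'⁻¹ * s * g') := by group
  rw [this]
  exact cf0_infres_right_inv₂ hf h1 _ _ (Subgroup.Normal.conj_mem' ‹_› _ hs _)

lemma cf0d₁_add (φ φ' : G → V) : cf0d₁ ρ (φ + φ') = cf0d₁ ρ φ + cf0d₁ ρ φ' := by
  funext p
  simp only [cf0d₁, Pi.add_apply, map_add]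
  abel

/-- **Step 2**: using `H¹(S, V) = 0`, a cocycle vanishing on `G × S` can be modified to vanish
on `G × S` and on `S × G`. -/
lemma cf0_infres_step2
    (hH1 : ∀ u : S → V, (∀ s t : S, u (s * t) = ρ s (u t) + u s) →
      ∃ a : V, ∀ s : S, u s = ρ s a - a)
    {f : G × G → V} (hf : Cf0Cocycle₂ ρ f) (h1 : ∀ g : G, ∀ s ∈ S, f (g, s) = 0) :
    ∃ φ : G → V, (∀ g : G, ∀ s ∈ S, (f - cf0d₁ ρ φ) (g, s) = 0) ∧
      (∀ s ∈ S, ∀ g : G, (f - cf0d₁ ρ φ) (s, g) = 0) := by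
  have hcoc : ∀ g : G, ∃ a : V, ∀ s : S, f (s, g) = ρ s a - a := by
    intro g
    apply hH1 (fun s => f (s, g))
    intro s t
    have h := hf s t g
    rw [h1 _ _ t.2, add_zero, cf0_infres_left_inv₂ hf h1 _ _ t.2] at h
    exact h
  choose b hb using hcoc
  have hB1 : ∀ g : G, ∀ s ∈ S,
      b (cf0Rep S (g * s)) - b (cf0Rep S 1) = b (cf0Rep S g) - b (cf0Rep S 1) := by
    intro g s hs
    rw [cf0Rep_mul_of_mem S g hs]
  have hB2 : ∀ s ∈ S, b (cf0Rep S s) - b (cf0Rep S 1) = 0 := by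
    intro s hs
    rw [cf0Rep_of_mem S hs, sub_self]
  have hB3 : ∀ s ∈ S, ∀ g : G, ρ s (b (cf0Rep S g) - b (cf0Rep S 1))
      - (b (cf0Rep S g) - b (cf0Rep S 1)) = f (s, g) := by
    intro s hs g
    have e1 := hb (cf0Rep S g) ⟨s, hs⟩
    have e2 := hb (cf0Rep S 1) ⟨s, hs⟩
    have e3 : f (s, g) = f (s, cf0Rep S g) := by
      conv_lhs => rw [← mul_inv_cancel_left (cf0Rep S g) g]
      exact cf0_infres_right_inv₂ hf h1 _ _ (cf0Rep_inv_mul_mem S g)
    rw [h1 _ _ (cf0Rep_one_mem S)] at e2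
    rw [e3, e1, map_sub]
    linear_combination (norm := abel) e2
  refine ⟨fun g => b (cf0Rep S g) - b (cf0Rep S 1), fun g s hs => ?_, fun s hs g => ?_⟩
  · simp only [Pi.sub_apply, cf0d₁_apply, h1 g s hs, hB1 g s hs, hB2 s hs, map_zero]
    abel
  · have hconj : s * g = g * (g⁻¹ * s * g) := by group
    have := hB3 s hs g
    simp only [Pi.sub_apply, cf0d₁_apply, hB2 s hs]
    rw [hconj, hB1 g _ (Subgroup.Normal.conj_mem' ‹_› _ hs _)]
    linear_combination (norm := abel) (-1 : ℤ) • this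

/-- **Step 3**: a cocycle vanishing on `G × S` and `S × G` is inflated from `G ⧸ S`, with values
in the `S`-invariants. -/
lemma cf0_infres_step3 {f : G × G → V} (hf : Cf0Cocycle₂ ρ f)
    (h1 : ∀ g : G, ∀ s ∈ S, f (g, s) = 0) (h2 : ∀ s ∈ S, ∀ g : G, f (s, g) = 0) :
    (∀ g g' : G, ∀ s ∈ S, f (g * s, g') = f (g, g')) ∧
    (∀ g g' : G, ∀ s ∈ S, f (g, g' * s) = f (g, g')) ∧
    (∀ g g' : G, ∀ s ∈ S, ρ s (f (g, g')) = f (g, g')) := by
  have hi : ∀ g g' : G, ∀ s ∈ S, f (g * s, g') = f (g, g') := by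
    intro g g' s hs
    have h := hf g s g'
    rw [h1 _ _ hs, h2 _ hs, map_zero, add_zero, zero_add, cf0_infres_left_inv₂ hf h1 _ _ hs] at h
    exact h
  refine ⟨hi, fun g g' s hs => cf0_infres_right_inv₂ hf h1 g g' hs, fun g g' s hs => ?_⟩
  have h := hf s g g'
  rw [h2 _ hs, h2 _ hs, add_zero, add_zero] at h
  rw [← h, show s * g = g * (g⁻¹ * s * g) by group]
  exact hi _ _ _ (Subgroup.Normal.conj_mem' ‹_› _ hs _)

/-- **Inflation–restriction in degree 2, exactness at the middle, cochain level**: if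
`H¹(S, V) = 0` and the restriction of the 2-cocycle `f` to `S` is a coboundary then `f` is
cohomologous to a cocycle which is constant on cosets of `S` in both variables and has values
in `V^S`. -/
theorem cf0_infres_core
    (hH1 : ∀ u : S → V, (∀ s t : S, u (s * t) = ρ s (u t) + u s) →
      ∃ a : V, ∀ s : S, u s = ρ s a - a)
    {f : G × G → V} (hf : Cf0Cocycle₂ ρ f) (ψ : S → V)
    (hψ : ∀ s t : S, f (s, t) = ρ s (ψ t) - ψ (s * t) + ψ s) :
    ∃ φ : G → V, Cf0Cocycle₂ ρ (f - cf0d₁ ρ φ) ∧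
      (∀ g g' : G, ∀ s ∈ S, (f - cf0d₁ ρ φ) (g * s, g') = (f - cf0d₁ ρ φ) (g, g')) ∧
      (∀ g g' : G, ∀ s ∈ S, (f - cf0d₁ ρ φ) (g, g' * s) = (f - cf0d₁ ρ φ) (g, g')) ∧
      (∀ g g' : G, ∀ s ∈ S, ρ s ((f - cf0d₁ ρ φ) (g, g')) = (f - cf0d₁ ρ φ) (g, g')) := by
  classical
  obtain ⟨φ₀, h0⟩ := cf0_infres_step0 (ρ := ρ) ψ hψ
  have hf0 : Cf0Cocycle₂ ρ (f - cf0d₁ ρ φ₀) := hf.sub ρ (cf0d₁_cocycle ρ φ₀)
  obtain ⟨φ₁, h1⟩ := cf0_infres_step1 hf0 h0
  have hf1 : Cf0Cocycle₂ ρ (f - cf0d₁ ρ φ₀ - cf0d₁ ρ φ₁) := hf0.sub ρ (cf0d₁_cocycle ρ φ₁)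
  obtain ⟨φ₂, h2, h2'⟩ := cf0_infres_step2 hH1 hf1 h1
  have hf2 : Cf0Cocycle₂ ρ (f - cf0d₁ ρ φ₀ - cf0d₁ ρ φ₁ - cf0d₁ ρ φ₂) :=
    hf1.sub ρ (cf0d₁_cocycle ρ φ₂)
  have e : f - cf0d₁ ρ (φ₀ + φ₁ + φ₂) = f - cf0d₁ ρ φ₀ - cf0d₁ ρ φ₁ - cf0d₁ ρ φ₂ := by
    rw [cf0d₁_add, cf0d₁_add]; abel
  refine ⟨φ₀ + φ₁ + φ₂, ?_⟩
  rw [e]
  exact ⟨hf2, cf0_infres_step3 hf2 h2 h2'⟩

/-- **Inflation is injective in degree 2 when `H¹(S, V) = 0`, cochain level**: if `F` is inflated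
(constant on cosets of `S` in both variables, values in `V^S`) and `F = d φ`, then `F = d φ'` with
`φ'` inflated. -/
theorem cf0_infres_inj_core
    (hH1 : ∀ u : S → V, (∀ s t : S, u (s * t) = ρ s (u t) + u s) →
      ∃ a : V, ∀ s : S, u s = ρ s a - a)
    {F : G × G → V}
    (hF1 : ∀ g g' : G, ∀ s ∈ S, F (g * s, g') = F (g, g'))
    (hF2 : ∀ g g' : G, ∀ s ∈ S, F (g, g' * s) = F (g, g'))
    (hF3 : ∀ g g' : G, ∀ s ∈ S, ρ s (F (g, g')) = F (g, g'))
    (φ : G → V) (hφ : F = cf0d₁ ρ φ) :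
    ∃ φ' : G → V, F = cf0d₁ ρ φ' ∧ (∀ g : G, ∀ s ∈ S, φ' (g * s) = φ' g) ∧
      (∀ g : G, ∀ s ∈ S, ρ s (φ' g) = φ' g) := by
  have hFst : ∀ s ∈ S, ∀ t ∈ S, F (s, t) = F (1, 1) := by
    intro s hs t ht
    have := hF1 1 t s hs
    rw [one_mul] at this
    rw [this]
    have := hF2 1 1 t ht
    rwa [one_mul] at this
  obtain ⟨a, ha⟩ := hH1 (fun s => φ s - F (1, 1)) (by
    intro s t
    have h := hFst s s.2 t t.2
    rw [hφ] at h
    simp only [cf0d₁_apply, one_mul, map_one, Module.End.one_apply] at h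
    have h3 := hF3 1 1 s s.2
    rw [hφ] at h3
    simp only [cf0d₁_apply, one_mul, map_one, Module.End.one_apply] at h3
    simp only [Subgroup.coe_mul, map_sub]
    rw [hφ]
    simp only [cf0d₁_apply, one_mul, map_one, Module.End.one_apply]
    linear_combination (norm := abel) (-1 : ℤ) • h + h3)
  have hφ' : F = cf0d₁ ρ (φ - fun g => ρ g a - a) := by
    rw [hφ]
    funext ⟨g, h⟩
    simp only [cf0d₁_apply, Pi.sub_apply, map_sub, map_mul, Module.End.mul_apply]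
    abel
  have hS : ∀ s ∈ S, (φ - fun g => ρ g a - a) s = F (1, 1) := by
    intro s hs
    have := ha ⟨s, hs⟩
    simp only [Pi.sub_apply]
    linear_combination (norm := abel) this
  refine ⟨φ - fun g => ρ g a - a, hφ', fun g s hs => ?_, fun g s hs => ?_⟩
  · have e1 := hF2 g 1 s hs
    rw [one_mul] at e1
    have e2 := congrFun hφ' (g, s)
    have e3 := congrFun hφ' (g, 1)
    rw [cf0d₁_apply, hS s hs] at e2
    rw [cf0d₁_apply, hS 1 S.one_mem, mul_one] at e3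
    linear_combination (norm := abel) (-1 : ℤ) • e1 + e2 - e3
  · have e1 := hF1 1 g s hs
    rw [one_mul] at e1
    have e2 := congrFun hφ' (s, g)
    have e3 := congrFun hφ' (1, g)
    have hconj : s * g = g * (g⁻¹ * s * g) := by group
    have e4 : (φ - fun g => ρ g a - a) (s * g) = (φ - fun g => ρ g a - a) g := by
      rw [hconj]
      have e5 := hF2 g 1 (g⁻¹ * s * g) (Subgroup.Normal.conj_mem' ‹_› _ hs _)
      rw [one_mul] at e5
      have e6 := congrFun hφ' (g, g⁻¹ * s * g)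
      have e7 := congrFun hφ' (g, 1)
      rw [cf0d₁_apply, hS _ (Subgroup.Normal.conj_mem' ‹_› _ hs _)] at e6
      rw [cf0d₁_apply, hS 1 S.one_mem, mul_one] at e7
      linear_combination (norm := abel) (-1 : ℤ) • e5 + e6 - e7
    rw [cf0d₁_apply, hS s hs, e4] at e2
    rw [cf0d₁_apply, hS 1 S.one_mem, one_mul, map_one, Module.End.one_apply] at e3
    linear_combination (norm := abel) e1 - e2 + e3

end Fermat.Agent.S55
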