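import Mathlib

set_option autoImplicit false

/-!
# Cup product `H¹(G, A) × H¹(G, B) → H²(G, C)` on inhomogeneous cochains

For a `G`-equivariant bilinear pairing `β : A × B → C` the cup product of 1-cochains is
`(f ∪ f')(g, h) = β (f g) (g • f' h)`.  We prove that it induces a bilinear map on cohomology,
that it is anticommutative and natural.
-/

namespace Fermat.Agent.S55

open CategoryTheory groupCohomology Rep

universe u

variable {k G : Type u} [CommRing k] [Group G]

/-- a `G`-equivariant bilinear pairing `A × B → C` -/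
structure Cf0Pairing (A B C : Rep.{u, u, u} k G) where
  /-- the underlying bilinear map -/
  toFun : A.V →ₗ[k] B.V →ₗ[k] C.V
  equivariant : ∀ (g : G) (a : A.V) (b : B.V), toFun (A.ρ g a) (B.ρ g b) = C.ρ g (toFun a b)

namespace Cf0Pairing

variable {A B C : Rep.{u, u, u} k G}

/-- the pairing with the two arguments swapped -/
def swap (β : Cf0Pairing A B C) : Cf0Pairing B A C where
  toFun := β.toFun.flip
  equivariant g b a := by simpa using β.equivariant g a b

@[simp] lemma swap_toFun (β : Cf0Pairing A B C) (b : B.V) (a : A.V) :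
    β.swap.toFun b a = β.toFun a b := rfl

/-- restriction of a pairing along a group homomorphism -/
def res {H : Type u} [Group H] (f : H →* G) (β : Cf0Pairing A B C) :
    Cf0Pairing (Rep.res f A) (Rep.res f B) (Rep.res f C) where
  toFun := β.toFun
  equivariant h a b := β.equivariant (f h) a b

end Cf0Pairing

variable {A B C : Rep.{u, u, u} k G}

lemma cf0_cocycles₁_add_apply (f₁ f₂ : cocycles₁ A) (g : G) : (f₁ + f₂) g = f₁ g + f₂ g := rfl

lemma cf0_cocycles₁_smul_apply (c : k) (f : cocycles₁ A) (g : G) : (c • f) g = c • f g := rfl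

/-- the cup product of two inhomogeneous 1-cochains -/
def cf0Cup (β : Cf0Pairing A B C) (f : G → A) (f' : G → B) : G × G → C :=
  fun p => β.toFun (f p.1) (B.ρ p.1 (f' p.2))

@[simp] lemma cf0Cup_apply (β : Cf0Pairing A B C) (f : G → A) (f' : G → B) (g h : G) :
    cf0Cup β f f' (g, h) = β.toFun (f g) (B.ρ g (f' h)) := rfl

theorem cf0Cup_mem_cocycles₂ (β : Cf0Pairing A B C) (f : cocycles₁ A) (f' : cocycles₁ B) :
    cf0Cup β f f' ∈ cocycles₂ C := by
  rw [mem_cocycles₂_iff]
  intro g h j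
  have h1 := (mem_cocycles₁_iff f).1 f.2
  have h2 := (mem_cocycles₁_iff f').1 f'.2
  simp only [cf0Cup_apply, h1 g h, h2 h j, map_add, LinearMap.add_apply, map_mul,
    Module.End.mul_apply, ← β.equivariant]
  abel

theorem cf0Cup_mem_coboundaries₂_left (β : Cf0Pairing A B C) {f : G → A}
    (hf : f ∈ coboundaries₁ A) (f' : cocycles₁ B) : cf0Cup β f f' ∈ coboundaries₂ C := by
  obtain ⟨a, rfl⟩ := hf
  have h2 := (mem_cocycles₁_iff f').1 f'.2
  refine ⟨fun g => β.toFun a (f' g), ?_⟩
  funext ⟨g, h⟩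
  simp only [d₁₂_hom_apply, cf0Cup_apply, d₀₁_hom_apply, h2 g h, map_add, map_sub,
    LinearMap.sub_apply, ← β.equivariant]
  abel

theorem cf0Cup_mem_coboundaries₂_right (β : Cf0Pairing A B C) (f : cocycles₁ A) {f' : G → B}
    (hf' : f' ∈ coboundaries₁ B) : cf0Cup β f f' ∈ coboundaries₂ C := by
  obtain ⟨b, rfl⟩ := hf'
  have h1 := (mem_cocycles₁_iff f).1 f.2
  refine ⟨fun g => -β.toFun (f g) (B.ρ g b), ?_⟩
  funext ⟨g, h⟩
  simp only [d₁₂_hom_apply, cf0Cup_apply, d₀₁_hom_apply, h1 g h, map_add, map_sub, map_neg,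
    LinearMap.add_apply, map_mul, Module.End.mul_apply, ← β.equivariant]
  abel

/-! ### descent to cohomology -/

lemma cf0_H1π_surjective (A : Rep.{u, u, u} k G) : Function.Surjective (H1π A).hom :=
  (ModuleCat.epi_iff_surjective _).1 inferInstance

lemma cf0_H2π_surjective (A : Rep.{u, u, u} k G) : Function.Surjective (H2π A).hom :=
  (ModuleCat.epi_iff_surjective _).1 inferInstance

/-- `H¹(G, A)` as the quotient of the cocycles by the kernel of `H1π` -/
noncomputable def cf0H1Equiv (A : Rep.{u, u, u} k G) :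
    (cocycles₁ A ⧸ LinearMap.ker (H1π A).hom) ≃ₗ[k] H1 A :=
  LinearMap.quotKerEquivOfSurjective (H1π A).hom (cf0_H1π_surjective A)

@[simp] lemma cf0H1Equiv_symm_H1π (A : Rep.{u, u, u} k G) (f : cocycles₁ A) :
    (cf0H1Equiv A).symm (H1π A f) = Submodule.Quotient.mk f := by
  rw [LinearEquiv.symm_apply_eq]
  rfl

/-- the cup product on cocycles, as a bilinear map to `H²` -/
noncomputable def cf0CupZ (β : Cf0Pairing A B C) : cocycles₁ A →ₗ[k] cocycles₁ B →ₗ[k] H2 C :=
  LinearMap.mk₂ k (fun f f' => H2π C ⟨cf0Cup β f f', cf0Cup_mem_cocycles₂ β f f'⟩)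
    (fun f₁ f₂ f' => by
      rw [← map_add]
      congr 1
      apply Subtype.ext
      funext ⟨g, h⟩
      simp [cf0Cup, cf0_cocycles₁_add_apply])
    (fun c f f' => by
      rw [← map_smul]
      congr 1
      apply Subtype.ext
      funext ⟨g, h⟩
      simp [cf0Cup, cf0_cocycles₁_smul_apply])
    (fun f f₁ f₂ => by
      rw [← map_add]
      congr 1
      apply Subtype.ext
      funext ⟨g, h⟩
      simp [cf0Cup, cf0_cocycles₁_add_apply])
    (fun c f f' => by
      rw [← map_smul]
      congr 1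
      apply Subtype.ext
      funext ⟨g, h⟩
      simp [cf0Cup, cf0_cocycles₁_smul_apply])

@[simp] lemma cf0CupZ_apply (β : Cf0Pairing A B C) (f : cocycles₁ A) (f' : cocycles₁ B) :
    cf0CupZ β f f' = H2π C ⟨cf0Cup β f f', cf0Cup_mem_cocycles₂ β f f'⟩ := rfl

lemma cf0CupZ_eq_zero_left (β : Cf0Pairing A B C) {f : cocycles₁ A}
    (hf : f ∈ LinearMap.ker (H1π A).hom) (f' : cocycles₁ B) : cf0CupZ β f f' = 0 := by
  rw [cf0CupZ_apply, H2π_eq_zero_iff]
  exact cf0Cup_mem_coboundaries₂_left β ((H1π_eq_zero_iff f).1 hf) f'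

lemma cf0CupZ_eq_zero_right (β : Cf0Pairing A B C) (f : cocycles₁ A) {f' : cocycles₁ B}
    (hf' : f' ∈ LinearMap.ker (H1π B).hom) : cf0CupZ β f f' = 0 := by
  rw [cf0CupZ_apply, H2π_eq_zero_iff]
  exact cf0Cup_mem_coboundaries₂_right β f ((H1π_eq_zero_iff f').1 hf')

/-- **the cup product** `H¹(G, A) × H¹(G, B) → H²(G, C)` of a `G`-equivariant pairing -/
noncomputable def cf0CupH (β : Cf0Pairing A B C) : H1 A →ₗ[k] H1 B →ₗ[k] H2 C :=
  ((LinearMap.ker (H1π A).hom).liftQ
    ((LinearMap.ker (H1π B).hom).liftQ (cf0CupZ β).flip (by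
      intro f' hf'
      rw [LinearMap.mem_ker]
      ext f
      exact cf0CupZ_eq_zero_right β f hf')).flip (by
      intro f hf
      rw [LinearMap.mem_ker]
      ext f'
      exact cf0CupZ_eq_zero_left β hf f')).compl₁₂
    (cf0H1Equiv A).symm.toLinearMap (cf0H1Equiv B).symm.toLinearMap

theorem cf0CupH_π (β : Cf0Pairing A B C) (f : cocycles₁ A) (f' : cocycles₁ B) :
    cf0CupH β (H1π A f) (H1π B f') = H2π C ⟨cf0Cup β f f', cf0Cup_mem_cocycles₂ β f f'⟩ := by
  unfold cf0CupH
  rw [LinearMap.compl₁₂_apply]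
  simp only [LinearEquiv.coe_coe]
  rw [cf0H1Equiv_symm_H1π, cf0H1Equiv_symm_H1π]
  rfl

/-- **anticommutativity** of the cup product in degrees `(1, 1)` -/
theorem cf0CupH_swap (β : Cf0Pairing A B C) (x : H1 A) (y : H1 B) :
    cf0CupH β.swap y x = -cf0CupH β x y := by
  induction x using H1_induction_on with | @h f =>
  induction y using H1_induction_on with | @h f' =>
  rw [cf0CupH_π, cf0CupH_π, ← map_neg, H2π_eq_iff]
  have h1 := (mem_cocycles₁_iff f).1 f.2
  have h2 := (mem_cocycles₁_iff f').1 f'.2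
  refine ⟨fun g => -β.toFun (f g) (f' g), ?_⟩
  funext ⟨g, h⟩
  show _ = cf0Cup β.swap f' f (g, h) - (-cf0Cup β f f' (g, h))
  simp only [d₁₂_hom_apply, cf0Cup_apply, Cf0Pairing.swap_toFun, h1 g h, h2 g h, map_add, map_neg,
    LinearMap.add_apply, ← β.equivariant]
  abel

/-- **naturality** of the cup product in degrees `(1, 1)` (restriction, inflation, change of
coefficients) -/
theorem cf0CupH_map {H : Type u} [Group H] (f : G →* H) {A B C : Rep.{u, u, u} k H}
    {A' B' C' : Rep.{u, u, u} k G}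
    (a : res f A ⟶ A') (b : res f B ⟶ B') (c : res f C ⟶ C')
    (β : Cf0Pairing A B C) (β' : Cf0Pairing A' B' C')
    (h : ∀ x y, β'.toFun (a.hom x) (b.hom y) = c.hom (β.toFun x y)) (x : H1 A) (y : H1 B) :
    (groupCohomology.map f c 2).hom (cf0CupH β x y) =
      cf0CupH β' ((groupCohomology.map f a 1).hom x) ((groupCohomology.map f b 1).hom y) := by
  induction x using H1_induction_on with | @h u =>
  induction y using H1_induction_on with | @h v =>
  rw [cf0CupH_π]
  erw [H2π_comp_map_apply, H1π_comp_map_apply, H1π_comp_map_apply]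
  rw [cf0CupH_π]
  congr 1
  apply Subtype.ext
  funext ⟨g, j⟩
  have hb := hom_comm_apply b g (v (f j))
  show c.hom (β.toFun (u (f g)) (B.ρ (f g) (v (f j))))
    = β'.toFun (a.hom (u (f g))) (B'.ρ g (b.hom (v (f j))))
  rw [← h, ← hb]
  rfl

end Fermat.Agent.S55
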