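import Mathlib
import Fermat.Agent.S55.CF0.InfRes2Core

set_option autoImplicit false

/-!
# Inflation–restriction in degree 2 for Mathlib's `groupCohomology`

`0 ⟶ H²(G ⧸ S, A^S) ⟶ H²(G, A) ⟶ H²(S, A)` is exact when `H¹(S, A) = 0`.
-/

namespace Fermat.Agent.S55

open CategoryTheory groupCohomology Rep

universe u

variable {k G : Type u} [CommRing k] [Group G]

section one

variable {H : Type u} [Group H] {A : Rep k H} {B : Rep k G}

/-- the map induced on `H²` by the trivial group homomorphism is zero -/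
theorem cf0_map₂_one (φ : res (1 : G →* H) A ⟶ B) : map (1 : G →* H) φ 2 = 0 := by
  rw [← cancel_epi (H2π _), H2π_comp_map, Limits.comp_zero]
  ext x
  simp only [ModuleCat.hom_comp, LinearMap.coe_comp, Function.comp_apply, ModuleCat.hom_zero,
    LinearMap.zero_apply]
  rw [H2π_eq_zero_iff]
  refine ⟨fun _ => φ.hom (x (1, 1)), ?_⟩
  funext ⟨g, h⟩
  have := hom_comm_apply φ g (x (1, 1))
  simp at this
  rw [coe_mapCocycles₂]
  simp [d₁₂_hom_apply, ← this]

end one

variable (A : Rep k G) (S : Subgroup G) [S.Normal]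

/-- The short complex `H²(G ⧸ S, A^S) ⟶ H²(G, A) ⟶ H²(S, A)`. -/
@[simps X₁ X₂ X₃ f g]
noncomputable def cf0H2InfRes : ShortComplex (ModuleCat k) where
  X₁ := groupCohomology (A.quotientToInvariants S) 2
  X₂ := groupCohomology A 2
  X₃ := groupCohomology (res S.subtype A) 2
  f := map (QuotientGroup.mk' S) (ofHom <| A.ρ.quotientToInvariants_lift S) 2
  g := map S.subtype (𝟙 _) 2
  zero := by rw [← map_comp, Category.comp_id, groupCohomology.congr (QuotientGroup.mk'_comp_subtype S)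
    (fun f φ => map f φ 2), cf0_map₂_one]

variable {A S}

/-- `H¹(S, A) = 0` in cocycle form -/
lemma cf0_H1_res_cocycle_form (h1 : ∀ x : H1 (res S.subtype A), x = 0) :
    ∀ u : S → A, (∀ s t : S, u (s * t) = A.ρ s (u t) + u s) →
      ∃ a : A, ∀ s : S, u s = A.ρ s a - a := by
  intro u hu
  have hmem : u ∈ cocycles₁ (res S.subtype A) := (mem_cocycles₁_iff (A := res S.subtype A) u).2 hu
  have := h1 (H1π _ ⟨u, hmem⟩)
  rw [H1π_eq_zero_iff] at this
  obtain ⟨a, ha⟩ := this
  exact ⟨a, fun s => (congrFun ha s).symm⟩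

/-- descend a function on `G × G` which is constant on cosets of `S` in both variables and has
values in the `S`-invariants to a 2-cochain of `G ⧸ S` with values in `A^S` -/
noncomputable def cf0Descend₂ (F : G × G → A)
    (h1 : ∀ g g' : G, ∀ s ∈ S, F (g * s, g') = F (g, g'))
    (h2 : ∀ g g' : G, ∀ s ∈ S, F (g, g' * s) = F (g, g'))
    (h3 : ∀ g g' : G, ∀ s ∈ S, A.ρ s (F (g, g')) = F (g, g')) :
    (G ⧸ S) × (G ⧸ S) → A.quotientToInvariants S :=
  fun p => Quotient.liftOn₂' p.1 p.2 (fun g g' => ⟨F (g, g'), fun s => h3 g g' s s.2⟩) (by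
    intro a₁ a₂ b₁ b₂ hab₁ hab₂
    rw [QuotientGroup.leftRel_apply] at hab₁ hab₂
    apply Subtype.ext
    dsimp only
    have e₁ := h1 a₁ b₂ _ hab₁
    have e₂ := h2 a₁ a₂ _ hab₂
    rw [mul_inv_cancel_left] at e₁ e₂
    rw [e₁, e₂])

@[simp] lemma cf0Descend₂_mk (F : G × G → A) (h1 h2 h3) (g g' : G) :
    (cf0Descend₂ (S := S) F h1 h2 h3 ((g : G ⧸ S), (g' : G ⧸ S)) : A.V) = F (g, g') := rfl

/-- descend a function on `G` which is constant on cosets of `S` with values in the `S`-invariants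
to a 1-cochain of `G ⧸ S` with values in `A^S` -/
noncomputable def cf0Descend₁ (φ : G → A)
    (h1 : ∀ g : G, ∀ s ∈ S, φ (g * s) = φ g)
    (h3 : ∀ g : G, ∀ s ∈ S, A.ρ s (φ g) = φ g) :
    (G ⧸ S) → A.quotientToInvariants S :=
  fun p => Quotient.liftOn' p (fun g => ⟨φ g, fun s => h3 g s s.2⟩) (by
    intro a b hab
    rw [QuotientGroup.leftRel_apply] at hab
    apply Subtype.ext
    dsimp only
    have e₁ := h1 a _ hab
    rw [mul_inv_cancel_left] at e₁
    rw [e₁])

@[simp] lemma cf0Descend₁_mk (φ : G → A) (h1 h3) (g : G) :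
    (cf0Descend₁ (S := S) φ h1 h3 (g : G ⧸ S) : A.V) = φ g := rfl

/-- **inflation–restriction in degree 2**: exactness at `H²(G, A)` when `H¹(S, A) = 0` -/
theorem cf0_H2InfRes_exact (h1 : ∀ x : H1 (res S.subtype A), x = 0) :
    (cf0H2InfRes A S).Exact := by
  rw [ShortComplex.moduleCat_exact_iff_ker_sub_range]
  intro x hx
  induction x using H2_induction_on with | @h x =>
  replace hx : (groupCohomology.map S.subtype (𝟙 (res S.subtype A)) 2).hom (H2π A x) = 0 := hx
  rw [H2π_comp_map_apply S.subtype] at hx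
  rcases (H2π_eq_zero_iff _).1 hx with ⟨ψ, hψ⟩
  have hxc : Cf0Cocycle₂ A.ρ (x : G × G → A) := (mem_cocycles₂_iff (x : G × G → A)).1 x.2
  have hψ' : ∀ s t : S, (x : G × G → A) ((s : G), (t : G))
      = A.ρ s (ψ t) - ψ (s * t) + ψ s := by
    intro s t
    have := congrFun hψ (s, t)
    rw [coe_mapCocycles₂] at this
    simpa using this.symm
  obtain ⟨φ, hcoc, hi1, hi2, hi3⟩ :=
    cf0_infres_core (ρ := A.ρ) (S := S) (cf0_H1_res_cocycle_form h1) hxc ψ hψ'
  have hmem : cf0Descend₂ (S := S) ((x : G × G → A) - cf0d₁ A.ρ φ) hi1 hi2 hi3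
      ∈ cocycles₂ (A.quotientToInvariants S) := by
    rw [mem_cocycles₂_iff]
    intro g h j
    induction g using QuotientGroup.induction_on with | @H g =>
    induction h using QuotientGroup.induction_on with | @H h =>
    induction j using QuotientGroup.induction_on with | @H j =>
    apply Subtype.ext
    exact hcoc g h j
  refine ⟨H2π _ ⟨_, hmem⟩, ?_⟩
  show (groupCohomology.map (QuotientGroup.mk' S) (ofHom <| A.ρ.quotientToInvariants_lift S) 2).hom
    (H2π _ ⟨_, hmem⟩) = _
  rw [H2π_comp_map_apply, H2π_eq_iff]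
  refine ⟨-φ, ?_⟩
  funext ⟨g, h⟩
  rw [coe_mapCocycles₂]
  simp only [d₁₂_hom_apply, Pi.neg_apply, map_neg, Pi.sub_apply]
  show _ = (cf0Descend₂ (S := S) ((x : G × G → A) - cf0d₁ A.ρ φ) hi1 hi2 hi3 ((g : G ⧸ S), (h : G ⧸ S)) : A.V) - _
  rw [cf0Descend₂_mk]
  simp only [Pi.sub_apply, cf0d₁_apply]
  abel

/-- **inflation–restriction in degree 2**: inflation is injective when `H¹(S, A) = 0` -/
theorem cf0_H2InfRes_mono (h1 : ∀ x : H1 (res S.subtype A), x = 0) :
    Mono (cf0H2InfRes A S).f := by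
  rw [ModuleCat.mono_iff_injective, injective_iff_map_eq_zero]
  intro x hx
  induction x using H2_induction_on with | @h x =>
  replace hx : (groupCohomology.map (QuotientGroup.mk' S)
    (ofHom <| A.ρ.quotientToInvariants_lift S) 2).hom (H2π _ x) = 0 := hx
  rw [H2π_comp_map_apply] at hx
  rcases (H2π_eq_zero_iff _).1 hx with ⟨φ, hφ⟩
  have hF : (fun p : G × G => ((x ((p.1 : G ⧸ S), (p.2 : G ⧸ S))) : A.V)) = cf0d₁ A.ρ φ := by
    funext ⟨g, h⟩
    have := congrFun hφ (g, h)
    rw [coe_mapCocycles₂] at this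
    simpa using this.symm
  obtain ⟨φ', hφ', hc1, hc3⟩ := cf0_infres_inj_core (ρ := A.ρ) (S := S)
    (cf0_H1_res_cocycle_form h1)
    (F := fun p : G × G => ((x ((p.1 : G ⧸ S), (p.2 : G ⧸ S))) : A.V))
    (fun g g' s hs => by
      have : ((g * s : G) : G ⧸ S) = (g : G ⧸ S) := by
        rw [QuotientGroup.eq]; simpa using hs
      simp only [this])
    (fun g g' s hs => by
      have : ((g' * s : G) : G ⧸ S) = (g' : G ⧸ S) := by
        rw [QuotientGroup.eq]; simpa using hs
      simp only [this])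
    (fun g g' s hs => (x ((g : G ⧸ S), (g' : G ⧸ S))).2 ⟨s, hs⟩) φ hF
  refine (H2π_eq_zero_iff _).2 ⟨cf0Descend₁ (S := S) φ' hc1 hc3, ?_⟩
  funext ⟨g, h⟩
  induction g using QuotientGroup.induction_on with | @H g =>
  induction h using QuotientGroup.induction_on with | @H h =>
  apply Subtype.ext
  exact (congrFun hφ' (g, h)).symm

/-- inflation `H²(G ⧸ S, A^S) → H²(G, A)` is injective when `H¹(S, A) = 0` -/
theorem cf0_H2_inf_injective (h1 : ∀ x : H1 (res S.subtype A), x = 0) :
    Function.Injective (cf0H2InfRes A S).f.hom := by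
  have := cf0_H2InfRes_mono h1
  exact (ModuleCat.mono_iff_injective _).1 this

/-- a class in `H²(G, A)` restricts to zero on `S` iff it is inflated from `G ⧸ S`
(when `H¹(S, A) = 0`) -/
theorem cf0_H2_res_eq_zero_iff (h1 : ∀ x : H1 (res S.subtype A), x = 0)
    (x : (cf0H2InfRes A S).X₂) :
    (cf0H2InfRes A S).g.hom x = 0 ↔ ∃ y, (cf0H2InfRes A S).f.hom y = x := by
  have hex := (ShortComplex.moduleCat_exact_iff_ker_sub_range _).1 (cf0_H2InfRes_exact h1)
  constructor
  · intro hx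
    exact hex hx
  · rintro ⟨y, rfl⟩
    have := (cf0H2InfRes A S).zero
    exact congrArg (fun f => f.hom y) this

end Fermat.Agent.S55
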